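import Fermat.Agent.Conductor.Residual
import Fermat.Agent.Conductor.Quadratic
import Fermat.Agent.Conductor.PointBound
import Fermat.Agent.EC.Reducible.ExistsLine
import Fermat.Agent.EC.Reducible.FreyCofixed
import Fermat.Agent.Gal.Frobenius
import Fermat.Agent.Root.Defs
import Fermat.Prelude.Def_GaloisRep_Adic

/-!
# Residual comparison of an adic representation with the torsion of a semistable curve

A representation congruent to `W` at Frobenius elements makes `W[p]` unramified wherever it is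
(`unramifiedMod_of_residual`), and `W[p]` is irreducible for all large `p`
(`exists_forall_irreducible`).
-/

set_option autoImplicit false

noncomputable section

open WeierstrassCurve WeierstrassCurve.Affine.Point Polynomial
open scoped WeierstrassCurve.Affine TensorProduct

namespace Fermat.Agent.RootResidual

open Conductor

local notation "ℚbar" => AlgebraicClosure ℚ
local notation "Γ" => AlgebraicClosure ℚ ≃ₐ[ℚ] AlgebraicClosure ℚ

/-- A representation congruent to `W` at Frobenius elements and trivial on inertia at `q` makes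
`W[p]` unramified at `q`, when `W[p]` is irreducible and `p` is odd. -/
theorem unramifiedMod_of_residual {O : Type} [CommRing O] [IsLocalRing O]
    (W : WeierstrassCurve ℤ) (hΔ : W.Δ ≠ 0) (p : ℕ) [Fact p.Prime]
    (hp2 : p ≠ 2) (hirr : W.ModRepIsIrreducible p)
    (hpO : (p : O) ∈ IsLocalRing.maximalIdeal O) (ρ : GaloisRepAdic O) (S : Finset ℕ)
    (hfrob : ∀ ℓ : ℕ, ℓ.Prime → ℓ ∉ S → W.IsGoodPrimeFor ℓ → ℓ ≠ p →
      ∀ A : ValuationSubring ℚbar, A.LiesOverPrime ℓ → ∀ τ : Γ, A.IsFrobeniusAt τ ℓ →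
        ∃ t : O, t - ((W.apOfModel ℓ : ℤ) : O) ∈ IsLocalRing.maximalIdeal O ∧
          LinearMap.charpoly (ρ.ρ τ) = X ^ 2 - C t * X + C ((ℓ : O)))
    {q : ℕ} (hinert : ρ.IsUnramifiedAt q) : Root.UnramifiedMod p W q := by
  obtain ⟨φ, -, ⟨e⟩⟩ := exists_residual_isEquiv W hΔ p hp2 hirr hpO ρ S hfrob
  set k := IsLocalRing.ResidueField O
  set R := torsionRep W hΔ p
  intro A hA σ hσ x
  let : Algebra (ZMod p) k := φ.toAlgebra
  have h1 : ρ.residual.ρ σ = 1 := by
    change (ρ.ρ σ).baseChange k = 1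
    rw [hinert A hA σ hσ, LinearMap.baseChange_one]
  let y : R.V := x
  have h3 : (R.baseChangeAlong φ).ρ σ ((1 : k) ⊗ₜ[ZMod p] y) = (1 : k) ⊗ₜ[ZMod p] y := by
    apply e.toLinearEquiv.injective
    refine (e.map_apply σ _).trans ?_
    rw [h1]
    rfl
  change (R.ρ σ).baseChange k ((1 : k) ⊗ₜ[ZMod p] y) = _ at h3
  rw [LinearMap.baseChange_tmul] at h3
  let b := Module.finBasis (ZMod p) R.V
  refine (show R.ρ σ y = y from b.ext_elem fun i => φ.injective ?_)
  have h4 := congrArg (fun z => (b.baseChange k).repr z i) h3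
  simp only [Module.Basis.baseChange_repr_tmul] at h4
  rw [Algebra.smul_def, Algebra.smul_def, mul_one, mul_one] at h4
  exact h4

/-- The mod `p` representation of a semistable curve is irreducible for all large `p`. -/
theorem exists_forall_irreducible (W : WeierstrassCurve ℤ) (hW : Root.Semistable W) :
    ∃ B : ℕ, ∀ p : ℕ, p.Prime → B < p → W.ModRepIsIrreducible p := by
  obtain ⟨ℓ, hℓΔ, hℓ⟩ := Nat.exists_infinite_primes (W.Δ.natAbs + 1)
  have hgood : W.IsGoodPrimeFor ℓ := fun h => by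
    have := Int.le_of_dvd (by positivity [hW.ne] : (0 : ℤ) < |W.Δ|) ((dvd_abs _ _).mpr h)
    rw [Int.abs_eq_natAbs] at this
    omega
  set c : ℤ := 1 - W.apOfModel ℓ + ℓ with hc
  have hc0 : c ≠ 0 := fun h => (apOfModel_ne W hℓ).1 (by omega)
  refine ⟨max (max 2 ℓ) c.natAbs, fun p hp hB => ?_⟩
  have : Fact p.Prime := ⟨hp⟩
  by_contra hred
  obtain ⟨N, hst, hN0, hN1⟩ := EC.Reducible.exists_stable_line W hW.ne hp hred
  obtain ⟨A, hA⟩ := Gal.exists_liesOverPrime (L := ℚbar) hℓ
  obtain ⟨σ, hσ⟩ := Gal.exists_isFrobeniusAt hℓ hA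
  have hℓp : ¬ ℓ ∣ p := fun h => by
    have := (Nat.prime_dvd_prime_iff_eq hℓ hp).mp h
    omega
  have hcp : (c : ZMod p) ≠ 0 := fun h => by
    rw [ZMod.intCast_zmod_eq_zero_iff_dvd, Int.natCast_dvd] at h
    have := Nat.le_of_dvd (Int.natAbs_pos.mpr hc0) h
    omega
  have quad : ∀ x : Submodule.torsionBy ℤ ((W.map (Int.castRingHom ℚ))⁄ℚbar).Point p,
      σ • σ • x - W.apOfModel ℓ • (σ • x) + (ℓ : ℤ) • x = 0 := fun x => Subtype.ext
    (frobenius_quadratic hℓ hgood hℓp hA hσ (P := x.1) (by rw [← natCast_zsmul]; exact x.2))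
  have hscal : ∀ (z : ℤ) (x : Submodule.torsionBy ℤ ((W.map (Int.castRingHom ℚ))⁄ℚbar).Point p),
      z • x = (z : ZMod p) • x := fun z x => (Int.cast_smul_eq_zsmul (ZMod p) z x).symm
  rcases EC.Reducible.semistable_fix_line_or_fix_quot W hW.ne hW.ss hp (by omega) N hst hN0 hN1
    with h | h
  · obtain ⟨x, hx, hx0⟩ := Submodule.exists_mem_ne_zero_of_ne_bot hN0
    have e := quad x
    rw [h σ x hx, h σ x hx] at e
    have e' : c • x = 0 := by
      rw [hc, add_smul, sub_smul, one_smul]; exact e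
    rw [hscal, smul_eq_zero] at e'
    exact e'.elim hcp hx0
  · obtain ⟨y, hy⟩ : ∃ y, y ∉ N := by
      by_contra! hall
      exact hN1 (eq_top_iff.mpr fun y _ => hall y)
    refine hy ((N.smul_mem_iff hcp).mp ?_)
    rw [← hscal]
    have h1 := h σ y
    have h2 := h σ (σ • y)
    have e : c • y = -((σ • σ • y - σ • y) + (1 - W.apOfModel ℓ) • (σ • y - y)) := by
      rw [← add_right_inj (-(σ • σ • y - W.apOfModel ℓ • (σ • y) + (ℓ : ℤ) • y))]
      rw [hc, quad y]
      have := quad y
      rw [← sub_eq_zero]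
      simp only [add_smul, sub_smul, one_smul, smul_sub]
      linear_combination (norm := abel) this
    rw [e]
    refine N.neg_mem (N.add_mem h2 ?_)
    rw [hscal]
    exact N.smul_mem _ h1

end Fermat.Agent.RootResidual
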