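import Fermat.Agent.RootResidual.Compare
import Fermat.Agent.GalRep.Residual
import Fermat.Agent.Root.Attached

/-!
# The representation attached to a maximal ideal of the coefficient ring of an eigenform

An eigenform congruent to `W` modulo a maximal ideal gives an adic representation congruent to
`W` at Frobenius elements, unramified outside the level and `p` (`exists_rep`).
-/

set_option autoImplicit false

noncomputable section

open Polynomial IsLocalRing CongruenceSubgroup ModularFormClass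

namespace Fermat.Agent.RootResidual

local notation "ℚbar" => AlgebraicClosure ℚ
local notation "Γ" => AlgebraicClosure ℚ ≃ₐ[ℚ] AlgebraicClosure ℚ

/-- An eigenform congruent to `W` modulo `𝔪` gives an adic representation congruent to `W` at
Frobenius elements and unramified outside `M p`. -/
theorem exists_rep {M : ℕ} [NeZero M] {g : CuspForm (Gamma0 M) 2} (hg : g.IsNormalizedEigenform)
    (p : ℕ) [Fact p.Prime] (𝔪 : Ideal (integralClosure ℤ ℂ)) (h𝔪 : 𝔪.IsMaximal)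
    (hp : (p : integralClosure ℤ ℂ) ∈ 𝔪) :
    ∃ (O : Type) (_ : CommRing O) (_ : IsLocalRing O),
      (p : O) ∈ maximalIdeal O ∧ ∃ ρ : GaloisRepAdic O,
        (∀ q : ℕ, q.Prime → ¬ q ∣ M → q ≠ p → ρ.IsUnramifiedAt q) ∧
        ∀ ℓ : ℕ, ℓ.Prime → ¬ ℓ ∣ M → ℓ ≠ p → ∀ c : ℤ,
          (∃ a : integralClosure ℤ ℂ, (a : ℂ) = qCoeff ⇑g ℓ ∧
            a - (c : integralClosure ℤ ℂ) ∈ 𝔪) →
          ∀ A : ValuationSubring ℚbar, A.LiesOverPrime ℓ → ∀ τ : Γ, A.IsFrobeniusAt τ ℓ →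
            ∃ t : O, t - (c : O) ∈ maximalIdeal O ∧
              LinearMap.charpoly (ρ.ρ τ) = X ^ 2 - C t * X + C ((ℓ : O)) := by
  have := Fermat.Agent.S22.result M 2 ∅
  let κ := GalRep.eigenCharacterInt hg
  let a : ℕ → integralClosure ℤ ℂ := fun n => κ (Hecke.heckeTn M n)
  have ha : ∀ n, (a n : ℂ) = qCoeff ⇑g n := fun n => Hecke.eigenCharacter_heckeTn hg n
  have hκ : Module.Finite ℤ κ.range :=
    Module.Finite.of_surjective κ.rangeRestrict.toIntAlgHom.toLinearMap κ.rangeRestrict_surjective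
  let R := Subring.closure (Set.range a)
  have hR : R ≤ κ.range := Subring.closure_le.mpr (by rintro _ ⟨n, rfl⟩; exact ⟨_, rfl⟩)
  have : Module.Finite ℤ R :=
    Module.Finite.of_injective (Subring.inclusion hR).toIntAlgHom.toLinearMap
      (Subring.inclusion_injective hR)
  let P : Ideal R := 𝔪.comap R.subtype
  have hpP : (p : R) ∈ P := by
    show R.subtype (p : R) ∈ 𝔪
    rwa [map_natCast]
  obtain ⟨O₀, _, _, _, _, _, _, ι, hpO₀, hι⟩ := GalRep.exists_coeff_ring p R P hpP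
  obtain ⟨O, _, _, _, _, _, _, j, -, hj, ρ, -, hρ, -⟩ :=
    Root.exists_attached M g hg a ha p O₀ hpO₀ ι
  have hmem : ∀ x : O₀, x ∈ maximalIdeal O₀ → j x ∈ maximalIdeal O := fun x hx => map_nonunit j x hx
  have hpO : (p : O) ∈ maximalIdeal O := by simpa using hmem _ hpO₀
  have hnd : ∀ ℓ : ℕ, ℓ.Prime → ¬ ℓ ∣ M → ℓ ≠ p → ¬ ℓ ∣ M * p := fun ℓ hℓ hℓM hℓp h =>
    (hℓ.dvd_mul.mp h).elim hℓM fun h => hℓp ((Nat.prime_dvd_prime_iff_eq hℓ Fact.out).mp h)
  refine ⟨O, inferInstance, inferInstance, hpO, ρ,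
    fun q hq hqM hqp A hA => (hρ q hq (hnd q hq hqM hqp) A hA).1,
    fun ℓ hℓ hℓM hℓp c hc A hA τ hτ =>
      ⟨_, ?_, (hρ ℓ hℓ (hnd ℓ hℓ hℓM hℓp) A hA).2 τ hτ⟩⟩
  obtain ⟨b, hb, hbc⟩ := hc
  obtain rfl : b = a ℓ := Subtype.ext (hb.trans (ha ℓ).symm)
  set x : R := ⟨a ℓ, Subring.subset_closure ⟨ℓ, rfl⟩⟩
  have hx : x - (c : R) ∈ P := by
    show R.subtype (x - (c : R)) ∈ 𝔪
    rw [map_sub, map_intCast]
    exact hbc
  have h := hmem _ ((hι _).mpr hx)
  rwa [map_sub, map_sub, map_intCast, map_intCast] at h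

end Fermat.Agent.RootResidual
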